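import Fermat.Agent.S48.Core.Main2
import Fermat.Agent.S48.Forms.Top

/-! # S48: the frozen statement from the core and the five facts about `f` -/

set_option autoImplicit false

namespace Fermat.Agent.S48

open CongruenceSubgroup Polynomial
open scoped MatrixGroups

local notation "Qbar" => AlgebraicClosure ℚ
local notation "GQ" => (AlgebraicClosure ℚ ≃ₐ[ℚ] AlgebraicClosure ℚ)

namespace MainAux

theorem isIntegral_dirichlet {N : ℕ} [NeZero N] (ε : DirichletCharacter ℂ N) (x : ZMod N) :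
    IsIntegral ℤ (ε x) := by
  by_cases hx : IsUnit x
  · obtain ⟨u, rfl⟩ := hx
    refine IsIntegral.of_pow (Nat.totient_pos.2 (Nat.pos_of_ne_zero (NeZero.ne N))) ?_
    rw [← map_pow, ← Units.val_pow_eq_pow_val, ZMod.pow_totient, Units.val_one, map_one]
    exact isIntegral_one
  · rw [MulChar.map_nonunit ε hx]
    exact isIntegral_zero

theorem trace_det_of_charpoly {K : Type*} [Field K] (M : Matrix (Fin 2) (Fin 2) K) (t d : K)
    (h : M.charpoly = X ^ 2 - C t * X + C d) : M.trace = t ∧ M.det = d := by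
  rw [Matrix.charpoly_fin_two] at h
  constructor
  · have := congrArg (fun p => p.coeff 1) h
    simpa [coeff_X, coeff_C] using this
  · have := congrArg (fun p => p.coeff 0) h
    simpa [coeff_X, coeff_C] using this

end MainAux

open MainAux

theorem main
    (N : ℕ) [NeZero N] (ε : DirichletCharacter ℂ N) (f : CuspForm (Gamma1 N) 1)
    (hf₁ : ModularFormClass.qCoeff f 1 = 1)
    (hT : ∀ p : ℕ, p.Prime → ¬ p ∣ N → ∀ n : ℕ,
        ModularFormClass.qCoeff f (p * n) +
            ε (p : ZMod N) * (if p ∣ n then ModularFormClass.qCoeff f (n / p) else 0) =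
          ModularFormClass.qCoeff f p * ModularFormClass.qCoeff f n) :
    ∃ ρ : GQ →* GL (Fin 2) ℂ, GaloisFactorsThroughFiniteLevel ρ ∧
      (Deformation.matrixRepresentation ρ).IsIrreducible ∧
      ∀ p : ℕ, p.Prime → ¬ p ∣ N →
        ∀ A : ValuationSubring (AlgebraicClosure ℚ), A.LiesOverPrime p →
          (∀ σ ∈ A.inertiaSubgroupIn ℚ, ρ σ = 1) ∧
          ∀ σ : GQ, A.IsFrobeniusAt σ p →
            ((ρ σ : GL (Fin 2) ℂ) : Matrix (Fin 2) (Fin 2) ℂ).trace = ModularFormClass.qCoeff f p ∧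
            ((ρ σ : GL (Fin 2) ℂ) : Matrix (Fin 2) (Fin 2) ℂ).det = ε (p : ZMod N) := by
  classical
  have h : Eigen N ε f := ⟨hf₁, hT⟩
  let a : ℕ → OO := fun p =>
    if hp : p.Prime ∧ ¬ p ∣ N then ⟨ModularFormClass.qCoeff f p, isIntegral_coeff h p hp.1 hp.2⟩
    else 0
  let e : ℕ → OO := fun p => ⟨ε (p : ZMod N), isIntegral_dirichlet ε _⟩
  have ha : ∀ p : ℕ, p.Prime → ¬ p ∣ N → (a p : ℂ) = ModularFormClass.qCoeff f p := by
    intro p hp hpN
    simp only [a, dif_pos (And.intro hp hpN)]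
  have ha0 : ∀ p : ℕ, p ∣ N → a p = 0 := by
    intro p hpN
    simp only [a]
    rw [dif_neg (fun hh => hh.2 hpN)]
  have he : ∀ p : ℕ, (e p : ℂ) = ε (p : ZMod N) := fun p => rfl
  have hfin : ∀ η : ℝ, 0 < η → ∃ Y : Finset OO, UpperDens {p | a p ∉ Y} η := by
    intro η hη
    obtain ⟨Y', C, hC⟩ := few_values h η hη
    refine ⟨insert 0 (Y'.preimage Subtype.val Subtype.val_injective.injOn), C,
      fun s hs hs2 S hS => hC s hs hs2 S fun p hp => ?_⟩
    obtain ⟨hpp, hpY⟩ := hS p hp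
    simp only [Set.mem_ofPred_eq, Finset.mem_insert, Finset.mem_preimage, not_or] at hpY
    have hpN : ¬ p ∣ N := fun hd => hpY.1 (ha0 p hd)
    refine ⟨hpp, hpN, ?_⟩
    rw [← ha p hpp hpN]
    exact hpY.2
  have hrankin : WeightedUpper (fun p => if p ∣ N then 0 else min (‖(a p : ℂ)‖ ^ 2) 4) 1 := by
    obtain ⟨C, hC⟩ := rankin h
    refine ⟨C, fun s hs hs2 S hS => ?_⟩
    have := hC s hs hs2 S hS
    refine le_of_eq_of_le (Finset.sum_congr rfl fun p hp => ?_) this
    by_cases hpN : p ∣ N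
    · simp only [if_pos hpN]
    · simp only [if_neg hpN, ha p (hS p hp) hpN]
  obtain ⟨ρ, hirr, hatt⟩ := core2 N ε (eps_neg_one h) a e he hfin hrankin (hasModL h a e ha he)
  obtain ⟨r, hrfin, hrchar, hr1, hrirr⟩ := exists_matrixRep ρ
  refine ⟨r, hrfin, hrirr hirr, fun p hp hpN A hA => ?_⟩
  obtain ⟨hunr, hfrob⟩ := hatt p hp hpN
  refine ⟨fun σ hσ => (hr1 σ).2 (hunr A hA σ hσ), fun σ hσ => ?_⟩
  have := trace_det_of_charpoly _ _ _ ((hrchar σ).trans (hfrob A hA σ hσ))
  exact ⟨this.1.trans (ha p hp hpN), this.2.trans (he p)⟩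

end Fermat.Agent.S48
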