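import Mathlib
import Fermat.Prelude.Def_GaloisRep_Residual
import Fermat.Prelude.Def_Deformations_MatrixRepresentation

/-!
# S48 (Deligne–Serre): basic definitions of the project

* `Eigen N ε f` : the hypotheses of the frozen statement.
* `UpperDens X η`, `LowerDens X d` : Dirichlet-density inequalities, phrased with FINITE sums
  (no `tsum`, no summability side conditions).
* `FrobCharpoly ρ p t d`, `HasModL N a e ℓ` : interface with the geometric chain.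
* `FrobSet r C T` : the set of primes with a Frobenius lift in `C`.
-/

set_option autoImplicit false

namespace Fermat.Agent.S48

open CongruenceSubgroup Polynomial
open scoped MatrixGroups

local notation "Qbar" => AlgebraicClosure ℚ
local notation "GQ" => (AlgebraicClosure ℚ ≃ₐ[ℚ] AlgebraicClosure ℚ)

/-- The ring of all algebraic integers in `ℂ`. -/
abbrev OO : Type := integralClosure ℤ ℂ

/-- The hypotheses of S48. -/
structure Eigen (N : ℕ) [NeZero N] (ε : DirichletCharacter ℂ N) (f : CuspForm (Gamma1 N) 1) :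
    Prop where
  one : ModularFormClass.qCoeff f 1 = 1
  hecke : ∀ p : ℕ, p.Prime → ¬ p ∣ N → ∀ n : ℕ,
    ModularFormClass.qCoeff f (p * n) +
        ε (p : ZMod N) * (if p ∣ n then ModularFormClass.qCoeff f (n / p) else 0) =
      ModularFormClass.qCoeff f p * ModularFormClass.qCoeff f n

/-- `log (1 / (s - 1))`. -/
noncomputable def LL (s : ℝ) : ℝ := Real.log (1 / (s - 1))

/-- `∑_{p ∈ X} p^{-s} ≤ η log (1/(s-1)) + O(1)` on `(1,2]` (finite-sum form). -/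
def UpperDens (X : Set ℕ) (η : ℝ) : Prop :=
  ∃ C : ℝ, ∀ s : ℝ, 1 < s → s ≤ 2 → ∀ S : Finset ℕ, (∀ p ∈ S, p.Prime ∧ p ∈ X) →
    ∑ p ∈ S, (p : ℝ) ^ (-s) ≤ η * LL s + C

/-- `∑_{p ∈ X} p^{-s} ≥ (d - o(1)) log (1/(s-1))` as `s → 1⁺` (finite-sum form). -/
def LowerDens (X : Set ℕ) (d : ℝ) : Prop :=
  ∀ δ : ℝ, 0 < δ → ∃ s₀ : ℝ, 1 < s₀ ∧ ∀ s : ℝ, 1 < s → s < s₀ →
    ∃ S : Finset ℕ, (∀ p ∈ S, p.Prime ∧ p ∈ X) ∧ (d - δ) * LL s ≤ ∑ p ∈ S, (p : ℝ) ^ (-s)

/-- Weighted version of `UpperDens`: `∑_p w p * p^{-s} ≤ c log (1/(s-1)) + O(1)`. -/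
def WeightedUpper (w : ℕ → ℝ) (c : ℝ) : Prop :=
  ∃ C : ℝ, ∀ s : ℝ, 1 < s → s ≤ 2 → ∀ S : Finset ℕ, (∀ p ∈ S, p.Prime) →
    ∑ p ∈ S, w p * (p : ℝ) ^ (-s) ≤ c * LL s + C

/-- Rankin's bound in product form: `∏_{p ∈ S} (1 + w p * p^{-s}) ≤ C / (s - 1)` on `(1,2]`. -/
def ProdUpper (w : ℕ → ℝ) : Prop :=
  ∃ C : ℝ, ∀ s : ℝ, 1 < s → s ≤ 2 → ∀ S : Finset ℕ, (∀ p ∈ S, p.Prime) →
    ∏ p ∈ S, (1 + w p * (p : ℝ) ^ (-s)) ≤ C / (s - 1)

/-- Every Frobenius lift at `p` has characteristic polynomial `X² - t X + d`. -/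
def FrobCharpoly {k : Type} [Field k] (ρ : ResidualGaloisRep k) (p : ℕ) (t d : k) : Prop :=
  ∀ A : ValuationSubring Qbar, A.LiesOverPrime p → ∀ σ : GQ, A.IsFrobeniusAt σ p →
    LinearMap.charpoly (ρ.ρ σ) = X ^ 2 - C t * X + C d

/-- `ρ` is unramified outside `M` with Frobenius characteristic polynomials
`X² - t p X + d p`. -/
def Attached {k : Type} [Field k] (ρ : ResidualGaloisRep k) (M : ℕ) (t d : ℕ → k) : Prop :=
  ∀ p : ℕ, p.Prime → ¬ p ∣ M → ρ.IsUnramifiedAt p ∧ FrobCharpoly ρ p (t p) (d p)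

/-- The system `(a p, e p)` has mod `ℓ` representations for every reduction map `φ`. -/
def HasModL (N : ℕ) (a e : ℕ → OO) (ℓ : ℕ) : Prop :=
  ∀ (k : Type) [Field k] [IsAlgClosed k] (φ : OO →+* k), (ℓ : k) = 0 →
    ∃ ρ : ResidualGaloisRep k, Attached ρ (N * ℓ) (fun p => φ (a p)) (fun p => φ (e p))

/-- Primes outside `T` having a Frobenius lift `σ` with `r σ ∈ C`. -/
def FrobSet {M : Type} [MulOneClass M] (r : GQ →* M) (C : Set M) (T : Finset ℕ) : Set ℕ :=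
  {p | p.Prime ∧ p ∉ T ∧ ∃ (A : ValuationSubring Qbar) (σ : GQ),
    A.LiesOverPrime p ∧ A.IsFrobeniusAt σ p ∧ r σ ∈ C}

end Fermat.Agent.S48
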