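import Fermat.Agent.S48.Defs
import Fermat.Agent.TCheb.Bridge

/-!
# S48, block (B): the TRUE Chebotarev density theorem (lower Dirichlet density form)

Consumer statement.  The proof lives in `Fermat/Agent/TCheb/` (architect helper63).
-/

set_option autoImplicit false

namespace Fermat.Agent.S48

local notation "Qbar" => AlgebraicClosure ℚ
local notation "GQ" => (AlgebraicClosure ℚ ≃ₐ[ℚ] AlgebraicClosure ℚ)

/-- **(B) Chebotarev, inverse-symmetric form** (= bridge (E) of project `TCheb`, from
`TCheb.hasLogGE_add_inv`).  `r` a homomorphism of finite level, `C` stable under conjugation and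
under inversion: the primes with a Frobenius lift in `C` have lower Dirichlet density
`≥ #(C ∩ im r) / #(im r)`. -/
theorem chebotarev {M : Type} [Monoid M] (r : GQ →* M) (hr : GaloisFactorsThroughFiniteLevel r)
    (C : Set M) (hC : ∀ σ τ : GQ, r τ ∈ C → r (σ * τ * σ⁻¹) ∈ C)
    (hCinv : ∀ τ : GQ, r τ ∈ C → r τ⁻¹ ∈ C) (T : Finset ℕ) :
    LowerDens (FrobSet r C T)
      ((Nat.card {x : Set.range r // (x : M) ∈ C} : ℝ) / (Nat.card (Set.range r) : ℝ)) :=
  TCheb.chebotarev_bridge r hr C hC hCinv T

end Fermat.Agent.S48
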